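import Mathlib

/-!
# Row LT, tower T7, leaf T7.L2.1.RT4 `PushParC` (spare of helper62) : the Mathlib-only core

OFF-MAIN.  `N` linear, `b` a basis of `ℝ^ι`, `B` a basis of `ℝ^{ι'}` indexed by `ι ⊕ J` with
`N (B (inl i)) = b i`, `N (B (inr j)) = 0`.  Then `N` maps the fundamental parallelepiped of `B`
onto the one of `b` and the normalised Lebesgue measure to the normalised Lebesgue measure.
No hole, nothing assumed.  New names only (suffix `62`).
-/

set_option autoImplicit false

open MeasureTheory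

noncomputable section

namespace Fermat.Agent.LT.T7.H62P

/-- The Lebesgue measure of the unit cube `[0,1)^κ`, as a product measure. -/
def cubeM62 (κ : Type) [Fintype κ] : Measure (κ → ℝ) :=
  Measure.pi (fun _ : κ => (volume : Measure ℝ).restrict (Set.Ico 0 1))

instance cubeM62_prob (κ : Type) [Fintype κ] : IsProbabilityMeasure (cubeM62 κ) := by
  have : IsProbabilityMeasure ((volume : Measure ℝ).restrict (Set.Ico 0 1)) :=
    ⟨by simp⟩
  unfold cubeM62
  infer_instance

theorem cubeM62_eq (κ : Type) [Fintype κ] :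
    cubeM62 κ
      = (volume : Measure (κ → ℝ)).restrict (Set.pi Set.univ fun _ => Set.Ico (0 : ℝ) 1) := by
  rw [cubeM62, volume_pi, Measure.restrict_pi_pi]

/-- The coordinates of a basis as a measurable equivalence. -/
def coordE62 {κ κ' : Type} [Fintype κ] [Fintype κ'] (b : Module.Basis κ ℝ (κ' → ℝ)) :
    (κ → ℝ) ≃ᵐ (κ' → ℝ) :=
  (b.equivFun.symm.toContinuousLinearEquiv).toHomeomorph.toMeasurableEquiv

theorem coordE62_apply {κ κ' : Type} [Fintype κ] [Fintype κ'] (b : Module.Basis κ ℝ (κ' → ℝ))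
    (x : κ → ℝ) : coordE62 b x = b.equivFun.symm x := rfl

theorem coordE62_preimage {κ κ' : Type} [Fintype κ] [Fintype κ'] (b : Module.Basis κ ℝ (κ' → ℝ)) :
    coordE62 b ⁻¹' ZSpan.fundamentalDomain b = Set.pi Set.univ fun _ => Set.Ico (0 : ℝ) 1 := by
  ext x
  simp only [Set.mem_preimage, ZSpan.mem_fundamentalDomain, Set.mem_pi, Set.mem_univ,
    forall_true_left, coordE62_apply]
  refine forall_congr' fun i => ?_
  have : b.repr (b.equivFun.symm x) i = x i := by
    have h0 : b.repr (b.equivFun.symm x) i = (b.equivFun (b.equivFun.symm x)) i := by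
      rw [Module.Basis.equivFun_apply]
    rw [h0, LinearEquiv.apply_symm_apply]
  rw [this]

/-- The image of the cube measure in the coordinates of `b` is a multiple of the Lebesgue measure
restricted to the fundamental parallelepiped, and the constant is the inverse of the volume. -/
theorem exists_map_cube62 {κ κ' : Type} [Fintype κ] [Fintype κ'] (b : Module.Basis κ ℝ (κ' → ℝ)) :
    ∃ c : NNReal, Measure.map (coordE62 b) (cubeM62 κ)
        = c • (volume : Measure (κ' → ℝ)).restrict (ZSpan.fundamentalDomain b) ∧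
      (c : ℝ) = ((volume (ZSpan.fundamentalDomain b)).toReal)⁻¹ := by
  classical
  set e : (κ → ℝ) ≃L[ℝ] (κ' → ℝ) := b.equivFun.symm.toContinuousLinearEquiv with he
  set ν : Measure (κ' → ℝ) := Measure.map e volume with hν
  have : ν.IsAddHaarMeasure := e.isAddHaarMeasure_map volume
  set c : NNReal := Measure.addHaarScalarFactor ν volume with hc
  have hνc : ν = c • (volume : Measure (κ' → ℝ)) := Measure.isAddLeftInvariant_eq_smul ν volume
  have hF : MeasurableSet (ZSpan.fundamentalDomain b) := ZSpan.fundamentalDomain_measurableSet b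
  have hcoe : ⇑(coordE62 b) = ⇑e := rfl
  have hmap : Measure.map (coordE62 b) (cubeM62 κ) = ν.restrict (ZSpan.fundamentalDomain b) := by
    rw [cubeM62_eq, ← coordE62_preimage b, ← MeasurableEquiv.restrict_map, hν, hcoe]
  have h1 : ν (ZSpan.fundamentalDomain b) = 1 := by
    rw [hν, Measure.map_apply e.continuous.measurable hF, ← hcoe, coordE62_preimage, volume_pi,
      Measure.pi_pi]
    simp
  have h2 : (c : ENNReal) * volume (ZSpan.fundamentalDomain b) = 1 := by
    rw [hνc] at h1
    simpa using h1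
  refine ⟨c, ?_, ?_⟩
  · rw [hmap, hνc, Measure.restrict_smul]
  · have h3 : volume (ZSpan.fundamentalDomain b) = (c : ENNReal)⁻¹ :=
      (ENNReal.eq_inv_of_mul_eq_one_left (by rw [mul_comm]; exact h2))
    rw [h3]
    simp

/-- The normalised integral over the fundamental parallelepiped of `b` is the integral over the
unit cube in the coordinates of `b`. -/
theorem normInt_eq_cube62 {κ κ' : Type} [Fintype κ] [Fintype κ'] (b : Module.Basis κ ℝ (κ' → ℝ))
    (g : (κ' → ℝ) → ℂ) :
    (((volume (ZSpan.fundamentalDomain b)).toReal : ℝ) : ℂ)⁻¹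
        * ∫ t in ZSpan.fundamentalDomain b, g t
      = ∫ x, g (b.equivFun.symm x) ∂(cubeM62 κ) := by
  obtain ⟨c, hmap, hc⟩ := exists_map_cube62 b
  have h1 : ∫ x, g (b.equivFun.symm x) ∂(cubeM62 κ)
      = ∫ t, g t ∂(Measure.map (coordE62 b) (cubeM62 κ)) := by
    rw [integral_map_equiv]
    rfl
  rw [h1, hmap, integral_smul_nnreal_measure, NNReal.smul_def, hc, Complex.real_smul,
    Complex.ofReal_inv]

/-- Transfer of a.e. strong measurability to the cube. -/
theorem aesm_cube62 {κ κ' : Type} [Fintype κ] [Fintype κ'] (b : Module.Basis κ ℝ (κ' → ℝ))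
    (g : (κ' → ℝ) → ℂ)
    (hg : AEStronglyMeasurable g ((volume : Measure (κ' → ℝ)).restrict (ZSpan.fundamentalDomain b))) :
    AEStronglyMeasurable (fun x => g (b.equivFun.symm x)) (cubeM62 κ) := by
  obtain ⟨c, hmap, -⟩ := exists_map_cube62 b
  have h1 : AEStronglyMeasurable g (Measure.map (coordE62 b) (cubeM62 κ)) := by
    rw [hmap]
    exact hg.smul_measure c
  exact h1.comp_measurable (coordE62 b).measurable

/-- The projection of the cube of `ι ⊕ J` to the cube of `ι`. -/
theorem map_inl_cube62 (ι J : Type) [Fintype ι] [Fintype J] :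
    Measure.map (fun (x : ι ⊕ J → ℝ) (i : ι) => x (Sum.inl i)) (cubeM62 (ι ⊕ J)) = cubeM62 ι := by
  have hmp := measurePreserving_sumPiEquivProdPi (X := fun _ : ι ⊕ J => ℝ)
    (fun _ : ι ⊕ J => (volume : Measure ℝ).restrict (Set.Ico 0 1))
  have hcomp : (fun (x : ι ⊕ J → ℝ) (i : ι) => x (Sum.inl i))
      = Prod.fst ∘ (MeasurableEquiv.sumPiEquivProdPi (fun _ : ι ⊕ J => ℝ)) := by
    funext x
    rfl
  rw [hcomp, ← Measure.map_map measurable_fst (MeasurableEquiv.measurable _)]
  have : Measure.map (MeasurableEquiv.sumPiEquivProdPi (fun _ : ι ⊕ J => ℝ)) (cubeM62 (ι ⊕ J))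
      = (cubeM62 ι).prod (cubeM62 J) := hmp.map_eq
  rw [this, Measure.map_fst_prod]
  simp

theorem pushPar_core62 (ι ι' J : Type) [Fintype ι] [Fintype ι'] [Fintype J]
    (N : (ι' → ℝ) →ₗ[ℝ] (ι → ℝ)) (b : Module.Basis ι ℝ (ι → ℝ))
    (B : Module.Basis (ι ⊕ J) ℝ (ι' → ℝ))
    (hN1 : ∀ i, N (B (Sum.inl i)) = b i) (hN2 : ∀ j, N (B (Sum.inr j)) = 0) :
    (∀ t' ∈ ZSpan.fundamentalDomain B, N t' ∈ ZSpan.fundamentalDomain b) ∧
    (∀ t ∈ ZSpan.fundamentalDomain b, ∃ t' ∈ ZSpan.fundamentalDomain B, N t' = t) ∧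
    ∀ h : (ι → ℝ) → ℂ, IntegrableOn h (ZSpan.fundamentalDomain b) volume →
      (((volume (ZSpan.fundamentalDomain B)).toReal : ℝ) : ℂ)⁻¹
          * ∫ t' in ZSpan.fundamentalDomain B, h (N t')
        = (((volume (ZSpan.fundamentalDomain b)).toReal : ℝ) : ℂ)⁻¹
          * ∫ t in ZSpan.fundamentalDomain b, h t := by
  classical
  have hA : ∀ x : ι ⊕ J → ℝ,
      N (B.equivFun.symm x) = b.equivFun.symm (fun i => x (Sum.inl i)) := by
    intro x
    rw [Module.Basis.equivFun_symm_apply, Module.Basis.equivFun_symm_apply, map_sum,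
      Fintype.sum_sum_type]
    simp [hN1, hN2]
  have hreprB : ∀ (x : ι ⊕ J → ℝ) (k : ι ⊕ J), B.repr (B.equivFun.symm x) k = x k := by
    intro x k
    have h0 : B.repr (B.equivFun.symm x) k = (B.equivFun (B.equivFun.symm x)) k := by
      rw [Module.Basis.equivFun_apply]
    rw [h0, LinearEquiv.apply_symm_apply]
  have hreprb : ∀ (y : ι → ℝ) (i : ι), b.repr (b.equivFun.symm y) i = y i := by
    intro y i
    have h0 : b.repr (b.equivFun.symm y) i = (b.equivFun (b.equivFun.symm y)) i := by
      rw [Module.Basis.equivFun_apply]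
    rw [h0, LinearEquiv.apply_symm_apply]
  refine ⟨?_, ?_, ?_⟩
  · intro t' ht'
    rw [ZSpan.mem_fundamentalDomain] at ht' ⊢
    intro i
    have h1 : t' = B.equivFun.symm (B.equivFun t') := (B.equivFun.symm_apply_apply t').symm
    rw [h1, hA, hreprb]
    simpa [Module.Basis.equivFun_apply] using ht' (Sum.inl i)
  · intro t ht
    rw [ZSpan.mem_fundamentalDomain] at ht
    refine ⟨B.equivFun.symm (Sum.elim (b.equivFun t) 0), ?_, ?_⟩
    · rw [ZSpan.mem_fundamentalDomain]
      intro k
      rw [hreprB]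
      cases k with
      | inl i => simpa [Module.Basis.equivFun_apply] using ht i
      | inr j => simp
    · rw [hA]
      simp
  · intro h hh
    rw [normInt_eq_cube62 B (fun t' => h (N t')), normInt_eq_cube62 b h]
    have hG : AEStronglyMeasurable (fun y => h (b.equivFun.symm y)) (cubeM62 ι) :=
      aesm_cube62 b h hh.aestronglyMeasurable
    have hG' : AEStronglyMeasurable (fun y => h (b.equivFun.symm y))
        (Measure.map (fun (x : ι ⊕ J → ℝ) (i : ι) => x (Sum.inl i)) (cubeM62 (ι ⊕ J))) := by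
      rw [map_inl_cube62]
      exact hG
    have hmeas : Measurable (fun (x : ι ⊕ J → ℝ) (i : ι) => x (Sum.inl i)) :=
      measurable_pi_lambda _ fun i => measurable_pi_apply _
    calc ∫ x, h (N (B.equivFun.symm x)) ∂(cubeM62 (ι ⊕ J))
        = ∫ x, (fun y => h (b.equivFun.symm y)) ((fun (x : ι ⊕ J → ℝ) (i : ι) => x (Sum.inl i)) x)
            ∂(cubeM62 (ι ⊕ J)) := by
          simp only [hA]
      _ = ∫ y, h (b.equivFun.symm y)
            ∂(Measure.map (fun (x : ι ⊕ J → ℝ) (i : ι) => x (Sum.inl i)) (cubeM62 (ι ⊕ J))) :=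
          (integral_map hmeas.aemeasurable hG').symm
      _ = ∫ y, h (b.equivFun.symm y) ∂(cubeM62 ι) := by rw [map_inl_cube62]

end Fermat.Agent.LT.T7.H62P

end
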